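import Fermat.Agent.LinearDependence.Irreducible

/-!
# Two translations above the `p²`-torsion of an absolutely irreducible module

With the hypotheses of `exists_translation_snd` every pair of translations of two points is given by
an element fixing the `p`-torsion. For `τ` acting as `-1` on the `p²`-torsion the commutator
`τ g τ⁻¹ g⁻¹` fixes all of it and translates by `-2` times the translation by `g`, so any element
can be changed, without changing its action on the `p²`-torsion, to give any pair of translations.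
-/

set_option autoImplicit false

noncomputable section

namespace FA.SupportProblem

open FA.Bashmakov FA.LinearDependence

variable {G A : Type*} [Group G] [AddCommGroup A] (act : G →* AddMonoid.End A) {p : ℕ}

/-- The commutator of `-1` on the `pⁿ`-torsion and an element fixing the `pᵐ`-torsion, `m ≤ n`. -/
theorem commutator_act_le {m n : ℕ} (hmn : m ≤ n) {τ g : G}
    (hτ : ∀ y ∈ pTors A p n, act τ y = -y) (hg : ∀ y ∈ pTors A p m, act g y = y) :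
    (∀ y ∈ pTors A p n, act (τ * g * τ⁻¹ * g⁻¹) y = y) ∧
      ∀ {Q v : A}, (∀ σ, act σ (p ^ m • Q) = p ^ m • Q) → act g Q = Q + v →
        act (τ * g * τ⁻¹ * g⁻¹) Q = Q - 2 • v := by
  have hinv : ∀ (σ : G) (y : A), act σ (act σ⁻¹ y) = y := fun σ y => by
    simpa using act_inv_act act σ⁻¹ y
  have hτ' : ∀ y ∈ pTors A p n, act τ⁻¹ y = -y := fun y hy => by
    have e := congrArg (act τ⁻¹) (hτ _ (neg_mem hy))
    rw [act_inv_act, neg_neg] at e
    exact e.symm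
  refine ⟨fun y hy => ?_, fun {Q v} hQ hgQ => ?_⟩
  · have hz := act_mem_pTors act g⁻¹ hy
    rw [act_mul, act_mul, act_mul, hτ' _ hz, map_neg, hinv, hτ _ (neg_mem hy), neg_neg]
  have hd : ∀ σ, act σ Q - Q ∈ pTors A p m := fun σ => by
    rw [mem_pTors_iff, nsmul_sub, ← map_nsmul, hQ, sub_self]
  have hv : v ∈ pTors A p m := by simpa [hgQ] using hd g
  have hvn : v ∈ pTors A p n := pTors_mono hmn hv
  have e1 : act g⁻¹ Q = Q - v := by
    conv_lhs => rw [show Q = act g (Q - v) by rw [map_sub, hgQ, hg v hv, add_sub_cancel_right]]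
    rw [act_inv_act]
  set s := act τ⁻¹ Q - Q with hs
  have e2 : act τ Q = Q - act τ s := by rw [hs, map_sub, hinv]; abel
  rw [act_mul, act_mul, act_mul, e1, map_sub, hτ' v hvn,
    show act τ⁻¹ Q = Q + s by rw [hs, add_sub_cancel], sub_neg_eq_add]
  simp only [map_add, hgQ, hg s (hd τ⁻¹), hg v hv, e2, hτ v hvn]
  rw [two_nsmul]
  abel

/-- The commutator of `-1` on the `pⁿ`-torsion and an element fixing the `p`-torsion. -/
theorem commutator_act {n : ℕ} (hn : 1 ≤ n) {τ g : G}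
    (hτ : ∀ y ∈ pTors A p n, act τ y = -y) (hg : ∀ y ∈ pTors A p 1, act g y = y) :
    (∀ y ∈ pTors A p n, act (τ * g * τ⁻¹ * g⁻¹) y = y) ∧
      ∀ {Q v : A}, (∀ σ, act σ (p • Q) = p • Q) → act g Q = Q + v →
        act (τ * g * τ⁻¹ * g⁻¹) Q = Q - 2 • v :=
  ⟨(commutator_act_le act hn hτ hg).1, fun hQ =>
    (commutator_act_le act hn hτ hg).2 fun σ => by rw [pow_one]; exact hQ σ⟩

/-- **Any element with any pair of translations**, on the `p²`-torsion. -/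
theorem exists_act_sq_pair (hp : Odd p)
    (hirr : ∀ S : AddSubgroup A, (∀ y ∈ S, y ∈ pTors A p 1) → (∀ σ, ∀ y ∈ S, act σ y ∈ S) →
      (∀ y ∈ S, y = 0) ∨ ∀ y ∈ pTors A p 1, y ∈ S)
    (hneg : ∃ τ, ∀ y ∈ pTors A p 1, act τ y = -y)
    (hsc : ∀ f : pTors A p 1 →+ pTors A p 1,
      (∀ (σ : G) (x y : pTors A p 1), y.1 = act σ x.1 → (f y).1 = act σ (f x).1) →
      ∃ a : ℤ, ∀ x, (f x).1 = a • x.1)
    {Q₁ Q₂ : A} (h₁ : ∀ σ, act σ (p • Q₁) = p • Q₁) (h₂ : ∀ σ, act σ (p • Q₂) = p • Q₂)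
    (hind₁ : ∀ R : A, (∀ σ, act σ R = R) → p • R ≠ p • Q₁)
    (hind₂ : ∀ (a : ℤ) (R : A), (∀ σ, act σ R = R) → p • R ≠ p • (Q₂ - a • Q₁))
    (σ : G) {t₁ t₂ : A} (ht₁ : t₁ ∈ pTors A p 1) (ht₂ : t₂ ∈ pTors A p 1) :
    ∃ g, (∀ y ∈ pTors A p 2, act g y = act σ y) ∧ act g Q₁ = Q₁ + t₁ ∧ act g Q₂ = Q₂ + t₂ := by
  have hd : ∀ {Q : A}, (∀ σ, act σ (p • Q) = p • Q) → ∀ σ, act σ Q - Q ∈ pTors A p 1 :=
    fun {Q} hQ σ => by rw [mem_pTors_iff, pow_one, nsmul_sub, ← map_nsmul, hQ, sub_self]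
  set w₁ := act σ⁻¹ (t₁ - (act σ Q₁ - Q₁)) with hw₁
  set w₂ := act σ⁻¹ (t₂ - (act σ Q₂ - Q₂)) with hw₂
  have hm₁ : w₁ ∈ pTors A p 1 := act_mem_pTors act _ (sub_mem ht₁ (hd h₁ σ))
  have hm₂ : w₂ ∈ pTors A p 1 := act_mem_pTors act _ (sub_mem ht₂ (hd h₂ σ))
  obtain ⟨h, hh⟩ := hp
  -- translations by `h` times these fixing the `p`-torsion
  obtain ⟨g₁, hg₁, hg₁Q⟩ := exists_translation act ⟨h, hh⟩ 1 hirr hneg
    (fun σ => by rw [pow_one]; exact h₁ σ) (fun R hR => by rw [pow_one]; exact hind₁ R hR)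
    (nsmul_mem hm₁ h)
  obtain ⟨g₂, hg₂, hg₂Q₁, hg₂Q₂⟩ := exists_translation_snd act ⟨h, hh⟩ hirr hneg hsc h₁ h₂ hind₁
    hind₂ (sub_mem (nsmul_mem hm₂ h) (hd h₂ g₁))
  obtain ⟨τ₁, hτ₁⟩ := hneg
  obtain ⟨τ, hτ⟩ := exists_neg_pTors act ⟨h, hh⟩ hτ₁ 2
  obtain ⟨hk, hkQ⟩ := commutator_act act one_le_two hτ (g := g₁ * g₂) fun y hy => by
    rw [act_mul, hg₂ y hy, hg₁ y hy]
  have htwo : ∀ {w : A}, w ∈ pTors A p 1 → ∀ Q : A, Q - 2 • h • w = Q + w := fun {w} hw Q => by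
    rw [mem_pTors_iff, pow_one, hh, succ_nsmul, mul_nsmul'] at hw
    rw [sub_eq_iff_eq_add, add_assoc, add_comm w, hw, add_zero]
  have hinv : ∀ y : A, act σ (act σ⁻¹ y) = y := fun y => by simpa using act_inv_act act σ⁻¹ y
  have e₁ : act (g₁ * g₂) Q₁ = Q₁ + h • w₁ := by rw [act_mul, hg₂Q₁, hg₁Q]
  have e₂ : act (g₁ * g₂) Q₂ = Q₂ + h • w₂ := by
    rw [act_mul, hg₂Q₂, map_add, hg₁ _ (sub_mem (nsmul_mem hm₂ h) (hd h₂ g₁))]
    abel
  refine ⟨σ * (τ * (g₁ * g₂) * τ⁻¹ * (g₁ * g₂)⁻¹), fun y hy => ?_, ?_, ?_⟩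
  · rw [act_mul, hk y hy]
  · rw [act_mul, hkQ h₁ e₁, htwo hm₁, map_add, hw₁, hinv]; abel
  · rw [act_mul, hkQ h₂ e₂, htwo hm₂, map_add, hw₂, hinv]; abel

end FA.SupportProblem

end
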