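import Fermat.Agent.OrderDensity.Lift

/-!
# Points of order `p²` modulo `q` and Frobenius

At a prime `q ≠ p` of good reduction a point of order `p²` modulo `q` is the reduction of a point
of `E[p²]` of order `p²` fixed by a Frobenius.
-/

set_option autoImplicit false

noncomputable section

open WeierstrassCurve FA.Frob FA.EC FA.PointDiv
open scoped WeierstrassCurve.Affine Classical Pointwise

local notation "Qb" => AlgebraicClosure ℚ
local notation "GQ" => AlgebraicClosure ℚ ≃ₐ[ℚ] AlgebraicClosure ℚ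

namespace FA.SupportProblem

variable {W : WeierstrassCurve ℤ} [(ratCurve W).IsElliptic] {q : ℕ} [hq : Fact q.Prime]

/-- **A point of order `p²` modulo `q` gives one in `E[p²]` fixed by Frobenius.** -/
theorem exists_fixed_torsion_sq {p : ℕ} (hp : p.Prime) (hgood : W.IsGoodPrimeFor q) (hqp : q ≠ p)
    {R : (W.map (Int.castRingHom (ZMod q))).toAffine.Point} (hR : p ^ 2 • R = 0) (hR' : p • R ≠ 0)
    {A : ValuationSubring Qb} (hA : A.LiesOverPrime q) {σ : GQ} (hσ : A.IsFrobeniusAt σ q) :
    ∃ T : Fib W (p ^ 2) 0, fibHom W (p ^ 2) 0 σ T = T ∧ p • T.1 ≠ 0 := by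
  obtain ⟨T, hT, hσT, hT'⟩ :=
    FA.OrderDensity.exists_fixed_torsion (k := 1) hp hgood hqp hR (by rwa [pow_one]) hA hσ
  rw [pow_one] at hT'
  exact ⟨⟨T, hT.trans (map_zero (up W)).symm⟩, Subtype.ext hσT, hT'⟩

end FA.SupportProblem

end
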