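import Fermat.Agent.Bashmakov.Family

/-!
# Kummer theory modulo `p` above the `p²`-torsion

If every automorphism of the `p²`-torsion is induced, so is every such automorphism together with
every pair of translations by `p`-torsion of two independent points.
-/

set_option autoImplicit false

noncomputable section

namespace FA.SupportProblem

open FA.Bashmakov

variable {p : ℕ} [Fact p.Prime] {G A : Type*} [Group G] [AddCommGroup A]
variable (act : G →* AddMonoid.End A)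

/-- **Every automorphism of the `p²`-torsion with every pair of translations is induced.** -/
theorem exists_act_sq (hp2 : p ≠ 2)
    (c : (Fin 2 → ZMod (p ^ 1)) ≃+ Submodule.torsionBy ℤ A ((p : ℤ) ^ 1))
    (hfull : ∀ φ : Submodule.torsionBy ℤ A ((p : ℤ) ^ 1) ≃+ Submodule.torsionBy ℤ A ((p : ℤ) ^ 1),
      ∃ σ, ∀ x, act σ x.1 = (φ x).1)
    (hfull2 : ∀ φ : Submodule.torsionBy ℤ A ((p : ℤ) ^ 2) ≃+ Submodule.torsionBy ℤ A ((p : ℤ) ^ 2),
      ∃ σ, ∀ x, act σ x.1 = (φ x).1)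
    {Q₁ Q₂ : A} (h₁ : ∀ σ, act σ (p • Q₁) = p • Q₁) (h₂ : ∀ σ, act σ (p • Q₂) = p • Q₂)
    (hind : ∀ a b : ℤ, ¬ ((p : ℤ) ∣ a ∧ (p : ℤ) ∣ b) → ∀ R : A, (∀ σ, act σ R = R) →
      p • R ≠ a • p • Q₁ + b • p • Q₂)
    (φ : Submodule.torsionBy ℤ A ((p : ℤ) ^ 2) ≃+ Submodule.torsionBy ℤ A ((p : ℤ) ^ 2))
    (t₁ t₂ : Submodule.torsionBy ℤ A ((p : ℤ) ^ 1)) :
    ∃ σ, (∀ x, act σ x.1 = (φ x).1) ∧ act σ Q₁ = Q₁ + t₁.1 ∧ act σ Q₂ = Q₂ + t₂.1 := by
  obtain ⟨σ, hσ⟩ := hfull2 φ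
  have hinv : ∀ y : A, act σ (act σ⁻¹ y) = y := fun y => by
    have e : act (σ * σ⁻¹) y = act σ (act σ⁻¹ y) := by rw [map_mul]; rfl
    rw [← e, mul_inv_cancel, map_one]; rfl
  have hw : ∀ {Q : A} (t : pTors A p 1), (∀ σ, act σ (p • Q) = p • Q) →
      act σ⁻¹ (t.1 - (act σ Q - Q)) ∈ pTors A p 1 := fun {Q} t hQ => by
    rw [mem_pTors, pow_one, ← map_nsmul, nsmul_sub, nsmul_sub, ← map_nsmul (act σ), hQ, sub_self,
      sub_zero]
    have := mem_pTors.mp t.2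
    rw [pow_one] at this
    rw [this, map_zero]
  obtain ⟨g, hg, hgQ⟩ := exists_trivial_translation act hp2 one_le_two c hfull hfull2
    (Q := ![Q₁, Q₂]) (Fin.forall_fin_two.mpr ⟨h₁, h₂⟩)
    (fun a ha R hR he => hind (a 0) (a 1)
      (fun h => ha.elim fun i hi => hi ((Fin.forall_fin_two (p := fun i => _ ∣ a i)).mpr h i)) R hR
      (by simpa [Fin.sum_univ_two] using he))
    ![⟨_, hw t₁ h₁⟩, ⟨_, hw t₂ h₂⟩]
  refine ⟨σ * g, fun x => ?_, ?_, ?_⟩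
  · rw [map_mul]; exact (congrArg (act σ) (hg x)).trans (hσ x)
  · rw [map_mul]
    refine (congrArg (act σ) (hgQ 0)).trans ?_
    show act σ (Q₁ + act σ⁻¹ (t₁.1 - (act σ Q₁ - Q₁))) = Q₁ + t₁.1
    rw [map_add, hinv]; abel
  · rw [map_mul]
    refine (congrArg (act σ) (hgQ 1)).trans ?_
    show act σ (Q₂ + act σ⁻¹ (t₂.1 - (act σ Q₂ - Q₂))) = Q₂ + t₂.1
    rw [map_add, hinv]; abel

end FA.SupportProblem

end
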