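import Fermat.Agent.OpenImageAll.CartanImage
import Fermat.Agent.Weight1.DensityLevel

/-!
# A homothety congruent to one on the `p²`-torsion of an exceptional curve

An element of cyclotomic character `1 + p` has a power `k = 1 + p N`, fixing `√d`, with `tr N ≢ 0`.
It commutes with the automorphisms fixing `√d`, so `N` lies modulo `p` in the commutant of `Y`, and
`k τ k τ⁻¹ ≡ 1 + p tr N` for `τ` moving `√d`: a power of it is `1 + p` on `E[p²]`.
-/

set_option autoImplicit false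
set_option linter.unusedSectionVars false
set_option linter.style.haveILetI false

noncomputable section

open Matrix WeierstrassCurve FA.EC FA.Frob FA.RT FA.RT.Tate FA.JTorsion

local notation "Qb" => AlgebraicClosure ℚ
local notation "GQ" => AlgebraicClosure ℚ ≃ₐ[ℚ] AlgebraicClosure ℚ
local notation "M2" => Matrix (Fin 2) (Fin 2)

namespace FA.SupportProblem

variable {p : ℕ} [hp : Fact p.Prime]

/-- Powers of `1 + p a` modulo `p²`. -/
theorem one_add_mul_pow {R : Type*} [CommRing R] {q : R} (hq : q ^ 2 = 0) (a : R) (m : ℕ) :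
    (1 + q * a) ^ m = 1 + q * (m * a) := by
  induction m with
  | zero => simp
  | succ m ih =>
    rw [pow_succ, ih]
    push_cast
    linear_combination (m * a ^ 2 : R) * hq

/-- The invertible elements of the commutant are killed by `p² - 1`. -/
theorem pow_sq_sub_one_eq_one (hp2 : p ≠ 2) {Y M : M2 (ZMod p)} {δ : ZMod p} (hδ : δ ≠ 0)
    (hYY : Y * Y = δ • 1) (hY : ∀ a : ZMod p, Y ≠ a • 1) (hM : M.det ≠ 0) (h : M * Y = Y * M) :
    M ^ (p ^ 2 - 1) = 1 := by
  obtain ⟨a, b, rfl⟩ := FA.Exceptional.exists_eq_add_of_commute hY h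
  obtain ⟨m, hm⟩ := hp.out.odd_of_ne_two hp2
  have hYp : Y ^ (2 * m + 1) = δ ^ m • Y := by
    rw [pow_succ, pow_mul, pow_two, hYY, smul_pow, one_pow, smul_one_mul]
  rw [← hm] at hYp
  have hpow : ∀ x y : ZMod p, (x • Y + y • 1) ^ p = (x * δ ^ m) • Y + y • 1 := fun x y => by
    rw [add_pow_char_of_commute _ ((Commute.one_right _).smul_right y), smul_pow, smul_pow,
      one_pow, ZMod.pow_card, ZMod.pow_card, hYp, smul_smul]
  have h2 : (a • Y + b • 1) ^ (p ^ 2) = a • Y + b • 1 := by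
    rw [pow_two, pow_mul, hpow, hpow, mul_assoc, ← pow_add, ← two_mul,
      show 2 * m = p - 1 by omega, ZMod.pow_card_sub_one_eq_one hδ, mul_one]
  have hu : IsUnit (a • Y + b • 1 : M2 (ZMod p)) :=
    (Matrix.isUnit_iff_isUnit_det _).mpr (isUnit_iff_ne_zero.mpr hM)
  refine hu.mul_left_cancel ?_
  rw [← pow_succ', Nat.sub_add_cancel (Nat.one_le_pow _ _ hp.out.pos), h2, mul_one]

variable {W : WeierstrassCurve ℤ} [(ratCurve W).IsElliptic]

/-- An element of Galois of cyclotomic character `1 + p` modulo `p²`. -/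
theorem exists_det_eq_one_add (B : TateBasis p W) :
    ∃ k : GQ, PadicInt.toZModPow 2 (B.rep k).det = 1 + (p : ZMod (p ^ 2)) := by
  have : NeZero (p ^ 2) := ⟨pow_ne_zero _ hp.out.ne_zero⟩
  have hu : IsUnit (1 + (p : ZMod (p ^ 2))) := IsUnit.of_mul_eq_one (1 - (p : ZMod (p ^ 2))) (by
    rw [show (1 + (p : ZMod (p ^ 2))) * (1 - p) = 1 - (p : ZMod (p ^ 2)) ^ 2 by ring,
      ← Nat.cast_pow, ZMod.natCast_self, sub_zero])
  obtain ⟨k, hk⟩ := FA.Weight1.exists_cycM_eq (p ^ 2) hu.unit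
  refine ⟨k, ?_⟩
  rw [B.det_rep, cycP_toZModPow]
  exact congrArg Units.val hk

/-- **A homothety `1 + p` on `E[p²]`** for an exceptional curve and `Y` as in the normaliser of a
Cartan subgroup at `p`. -/
theorem exists_smul_eq_one_add_prime (hp2 : p ≠ 2) (hgood : W.IsGoodPrimeFor p) {d : ℤ}
    (hE : FA.CMStructure.IsExceptional W d) (hnd : ¬ (p : ℤ) ∣ d) {s : Qb} {H : Subgroup GQ}
    (hs : s ^ 2 = (d : Qb)) (hH : H.index = 2) (hopen : IsOpen (H : Set GQ))
    (hfix : ∀ σ, σ ∈ H ↔ σ s = s) {Y : M2 (ZMod p)} (hYY : Y * Y = (d : ZMod p) • 1)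
    (hY : ∀ g : GQ, (g s = s → curveRep p W g * Y = Y * curveRep p W g) ∧
      (g s ≠ s → curveRep p W g * Y = -(Y * curveRep p W g))) :
    ∃ σ : GQ, ∀ x : Pts W, p ^ 2 • x = 0 → σ • x = (1 + (p : ℤ)) • x := by
  obtain ⟨B⟩ := exists_tateBasis (p := p) W
  obtain ⟨τ, hτ⟩ := SetLike.exists_not_mem_of_ne_top H (fun h => by simp [h] at hH) rfl
  have hτs : τ s ≠ s := fun h => hτ ((hfix τ).mpr h)
  have hd0 : (d : ZMod p) ≠ 0 := fun h0 => hnd ((ZMod.intCast_zmod_eq_zero_iff_dvd d p).mp h0)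
  have h2 : (2 : ZMod p) ≠ 0 := fun h => hp2 ((Nat.prime_dvd_prime_iff_eq hp.out Nat.prime_two).mp
    ((ZMod.natCast_eq_zero_iff 2 p).mp (by exact_mod_cast h)))
  have hns := FA.CartanImage.ne_smul_one h2 hd0 hYY (FA.CartanImage.det_curveRep_ne_zero τ)
    ((hY τ).2 hτs)
  let red : M2 ℤ_[p] →+* M2 (ZMod p) := PadicInt.toZMod.mapMatrix
  have hred : ∀ g, red (B.rep g) = curveRep p W g := fun g => FA.PadicImage.rep_map_toZMod B g
  -- an element congruent to one with determinant not congruent to one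
  obtain ⟨k₀, hk₀⟩ := exists_det_eq_one_add B
  set e := 2 * (p ^ 2 - 1) with he
  have hkH : k₀ ^ e ∈ H := by
    rw [he, pow_mul]
    exact H.pow_mem (Subgroup.sq_mem_of_index_two hH k₀) _
  have hkone : curveRep p W (k₀ ^ e) = 1 := by
    rw [he, pow_mul, map_pow]
    exact pow_sq_sub_one_eq_one hp2 hd0 hYY hns (FA.CartanImage.det_curveRep_ne_zero _)
      ((hY _).1 ((hfix _).mp (Subgroup.sq_mem_of_index_two hH k₀)))
  have hp0 : (p : ℤ_[p]) ≠ 0 := Nat.cast_ne_zero.mpr hp.out.ne_zero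
  choose N₀ hN₀ using fun i j => (FA.PadicImage.toZMod_eq_zero_iff
    (x := (B.rep (k₀ ^ e) - 1) i j)).mp (by
      have := congrFun (congrFun (map_sub red (B.rep (k₀ ^ e)) 1) i) j
      rw [hred, hkone, map_one, sub_self] at this
      exact this)
  obtain ⟨N, hN⟩ : ∃ N : M2 ℤ_[p], B.rep (k₀ ^ e) = 1 + (p : ℤ_[p]) • N :=
    ⟨Matrix.of N₀, by rw [← add_sub_cancel 1 (B.rep (k₀ ^ e))]; congr 1; ext i j; exact hN₀ i j⟩
  let π := PadicInt.toZModPow (p := p) 2
  have hsq : (p : ZMod (p ^ 2)) ^ 2 = 0 := by rw [← Nat.cast_pow, ZMod.natCast_self]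
  have hpN : ∀ {x : ℤ_[p]}, π ((p : ℤ_[p]) * x) = 0 → PadicInt.toZMod x = 0 := fun {x} hx => by
    rw [← RingHom.mem_ker, PadicInt.ker_toZModPow, Ideal.mem_span_singleton, pow_two] at hx
    obtain ⟨y, hy⟩ := hx
    exact FA.PadicImage.toZMod_eq_zero_iff.mpr ⟨y, mul_left_cancel₀ hp0 (by rw [hy, mul_assoc])⟩
  have htrN : PadicInt.toZMod N.trace = -2 := by
    have h1 : π ((p : ℤ_[p]) * (N.trace - (e : ℤ_[p]))) = 0 := by
      have hdet : π (B.rep (k₀ ^ e)).det = (1 + (p : ZMod (p ^ 2)) * 1) ^ e := by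
        rw [map_pow, det_pow, map_pow, hk₀, mul_one]
      rw [one_add_mul_pow hsq, hN, det_fin_two] at hdet
      simp [Matrix.add_apply, Matrix.smul_apply] at hdet
      rw [mul_sub, map_sub, map_mul, map_mul, map_natCast, map_natCast, trace_fin_two, map_add]
      linear_combination hdet - (π (N 0 0) * π (N 1 1) - π (N 0 1) * π (N 1 0)) * hsq
    have h3 := hpN h1
    rw [map_sub, sub_eq_zero, map_natCast] at h3
    rw [h3, he, Nat.cast_mul, Nat.cast_sub (Nat.one_le_pow _ _ hp.out.pos), Nat.cast_pow,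
      ZMod.natCast_self]
    simp
  -- it commutes with the automorphisms fixing `√d`
  have hdetY : Y.det ≠ 0 := by
    rw [(FA.CartanImage.trace_det_of_sq hYY hns).2]
    exact neg_ne_zero.mpr hd0
  obtain ⟨g, hg, hgY⟩ := (FA.CartanImage.exists_eq_of_commute_or_anticommute hp2 hgood hnd hs hτs
    hYY hY hdetY).1 rfl
  have hNY : red N * Y = Y * red N := by
    have h1 := FA.Exceptional.rep_mul_comm hE.sqfree.ne_zero hs hH hopen hfix hE.vanish B hkH
      ((hfix g).mpr hg)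
    rw [hN, add_mul, mul_add, one_mul, mul_one, add_right_inj, smul_mul_assoc, mul_smul_comm] at h1
    rw [← hgY, ← hred, ← map_mul, ← map_mul, smul_right_injective _ hp0 h1]
  obtain ⟨a, b, hab⟩ := FA.Exceptional.exists_eq_add_of_commute hns hNY
  have hb : 2 * b = -2 := by
    rw [← htrN, show PadicInt.toZMod N.trace = (red N).trace from AddMonoidHom.map_trace _ N, hab,
      trace_add, trace_smul, trace_smul, (FA.CartanImage.trace_det_of_sq hYY hns).1, trace_one,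
      Fintype.card_fin, smul_zero, zero_add, smul_eq_mul, mul_comm, Nat.cast_ofNat]
  -- the homothety
  set c : ℕ := (2 * b).val with hc
  have hTT : B.rep τ * B.rep τ⁻¹ = 1 := by rw [← map_mul, mul_inv_cancel, map_one]
  have hconj : B.rep (τ * k₀ ^ e * τ⁻¹) = 1 + (p : ℤ_[p]) • (B.rep τ * N * B.rep τ⁻¹) := by
    rw [map_mul, map_mul, hN, mul_add, add_mul, mul_one, hTT, mul_smul_comm, smul_mul_assoc]
  have hsum : ∀ i j, PadicInt.toZMod
      ((N + B.rep τ * N * B.rep τ⁻¹ - (c : ℤ_[p]) • (1 : M2 ℤ_[p])) i j) = 0 := by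
    have hYτ : curveRep p W τ * Y * curveRep p W τ⁻¹ = -Y := by
      rw [(hY τ).2 hτs, neg_mul, mul_assoc, ← map_mul, mul_inv_cancel, map_one, mul_one]
    have h : red (N + B.rep τ * N * B.rep τ⁻¹ - (c : ℤ_[p]) • (1 : M2 ℤ_[p])) = 0 := by
      rw [map_sub, map_add, map_mul, map_mul, hred, hred, hab, Nat.cast_smul_eq_nsmul, map_nsmul,
        map_one, ← Nat.cast_smul_eq_nsmul (ZMod p), hc, ZMod.natCast_zmod_val, mul_add, add_mul,
        mul_smul_comm, smul_mul_assoc, hYτ, mul_smul_comm, smul_mul_assoc, mul_one, ← map_mul,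
        mul_inv_cancel, map_one]
      module
    exact fun i j => congrFun (congrFun h i) j
  have hσ : ∀ i j, π (B.rep (k₀ ^ e * (τ * k₀ ^ e * τ⁻¹)) i j) =
      ((1 + p * c : ℕ) : ZMod (p ^ 2)) * (1 : M2 (ZMod (p ^ 2))) i j := fun i j => by
    obtain ⟨y, hy⟩ := FA.PadicImage.toZMod_eq_zero_iff.mp (hsum i j)
    rw [map_mul, hN, hconj, show (1 + (p : ℤ_[p]) • N) * (1 + (p : ℤ_[p]) • (B.rep τ * N * B.rep τ⁻¹))
        = 1 + (p : ℤ_[p]) • (N + B.rep τ * N * B.rep τ⁻¹) +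
          ((p : ℤ_[p]) * p) • (N * (B.rep τ * N * B.rep τ⁻¹)) by
      simp only [add_mul, mul_add, one_mul, mul_one, smul_mul_assoc, mul_smul_comm]
      module]
    simp only [Matrix.sub_apply, Matrix.smul_apply, smul_eq_mul, sub_eq_iff_eq_add] at hy
    rw [Matrix.add_apply, Matrix.add_apply, Matrix.smul_apply, Matrix.smul_apply, smul_eq_mul,
      smul_eq_mul, hy]
    simp only [Matrix.one_apply]
    split_ifs <;> simp <;> linear_combination
      (π y + π ((N * (B.rep τ * N * B.rep τ⁻¹)) i j)) * hsq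
  have hact : ∀ x : Pts W, p ^ 2 • x = 0 →
      (k₀ ^ e * (τ * k₀ ^ e * τ⁻¹)) • x = (1 + p * c) • x := fun x hx => by
    obtain ⟨v, rfl⟩ := B.surj 2 x hx
    rw [B.rep_spec, ← map_nsmul]
    refine B.phi_eq_iff.mpr fun i => ?_
    rw [RingHom.map_mulVec, Pi.smul_apply, map_nsmul, nsmul_eq_mul]
    simp only [mulVec, dotProduct, Matrix.map_apply]
    rw [Fin.sum_univ_two]
    erw [hσ, hσ]
    fin_cases i <;> simp [Matrix.one_apply]
  refine ⟨(k₀ ^ e * (τ * k₀ ^ e * τ⁻¹)) ^ ((2 * b)⁻¹).val, fun x hx => ?_⟩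
  have hpow : ∀ m : ℕ,
      (k₀ ^ e * (τ * k₀ ^ e * τ⁻¹)) ^ m • x = (1 + p * c) ^ m • x := fun m => by
    induction m with
    | zero => rw [pow_zero, pow_zero, one_smul, one_smul]
    | succ m ih =>
      rw [pow_succ', mul_smul, ih, gal_smul_nsmul, hact x hx, ← mul_nsmul', ← pow_succ]
  rw [hpow, show (1 + (p : ℤ)) = ((1 + p : ℕ) : ℤ) by push_cast; rfl, natCast_zsmul]
  refine nsmul_eq_nsmul_iff_modEq.mpr ((Nat.ModEq.of_dvd
    (addOrderOf_dvd_of_nsmul_eq_zero hx) ?_))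
  rw [← ZMod.natCast_eq_natCast_iff]
  push_cast
  rw [one_add_mul_pow hsq]
  have hcj : ((((2 * b)⁻¹).val * c : ℕ) : ZMod p) = 1 := by
    rw [Nat.cast_mul, hc, ZMod.natCast_zmod_val, ZMod.natCast_zmod_val]
    exact inv_mul_cancel₀ (by rw [hb]; exact neg_ne_zero.mpr h2)
  haveI : Fact (1 < p) := ⟨hp.out.one_lt⟩
  have hdvd : ((((2 * b)⁻¹).val * c : ℕ) : ℤ) ≡ 1 [ZMOD (p : ℤ)] := by
    rw [← ZMod.intCast_eq_intCast_iff]
    exact_mod_cast hcj
  obtain ⟨z, hz⟩ := (Int.modEq_iff_dvd).mp hdvd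
  have hz' := congrArg (Int.cast : ℤ → ZMod (p ^ 2)) hz
  push_cast at hz'
  linear_combination (-(p : ZMod (p ^ 2))) * hz' - (z : ZMod (p ^ 2)) * hsq

end FA.SupportProblem

end
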