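import Fermat.Agent.LinearDependence.Main
import Fermat.Agent.SupportProblem.Galois
import Fermat.Agent.SupportProblem.Frobenius

/-!
# The support problem: the order of one point modulo infinitely many primes

For two points independent modulo `p` some element of Galois fixes a `p`-th part of the first, none
of the second, and multiplies `E[p²]` by `1 + p`. At the primes with that Frobenius there is no
point of order `p²`, so `p` divides the order of the second point and not that of the first.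
-/

set_option autoImplicit false
set_option linter.style.haveILetI false

noncomputable section

open WeierstrassCurve NumberField IsDedekindDomain FA.Frob FA.PointDiv
open scoped WeierstrassCurve.Affine Classical

local notation "Qb" => AlgebraicClosure ℚ
local notation "GQ" => AlgebraicClosure ℚ ≃ₐ[ℚ] AlgebraicClosure ℚ

namespace FA.SupportProblem

variable {W : WeierstrassCurve ℤ} [(ratCurve W).IsElliptic] {p : ℕ} [hp : Fact p.Prime]

omit hp in
/-- An element fixing a `p`-th part of `P`, translating one of `Q` and multiplying `E[p²]` by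
`1 + p` fixes a point of one fibre, none of the other, and no point of order `p²`. -/
theorem fixed_triple_of_act {P Q : (ratCurve W).toAffine.Point}
    {Q₁ Q₂ : ((ratCurve W).toAffine⁄Qb).Point} (hQ₁ : p • Q₁ = up W P) (hQ₂ : p • Q₂ = up W Q)
    {t : Submodule.torsionBy ℤ ((ratCurve W).toAffine⁄Qb).Point ((p : ℤ) ^ 1)} (ht : t.1 ≠ 0)
    {σ : GQ} (hσ₁ : σ • Q₁ = Q₁) (hσ₂ : σ • Q₂ = Q₂ + t.1)
    (hmul : ∀ X : ((ratCurve W).toAffine⁄Qb).Point, p ^ 2 • X = 0 →
      σ • X = (1 + (p : ℤ)) • X) :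
    ∃ σ : GQ, (∃ X, fibHom W p P σ X = X) ∧ (∀ X, fibHom W p Q σ X ≠ X) ∧
      ∀ T, fibHom W (p ^ 2) 0 σ T = T → p • T.1 = 0 := by
  refine ⟨σ, ⟨⟨Q₁, hQ₁⟩, Subtype.ext hσ₁⟩, fun X hX => ht ?_, fun T hT => ?_⟩
  · have hX' : σ • X.1 = X.1 := congrArg Subtype.val hX
    have hp0 : p • (X.1 - Q₂) = 0 := by rw [nsmul_sub, X.2, hQ₂, sub_self]
    have hd : σ • (X.1 - Q₂) = X.1 - Q₂ := by
      rw [hmul _ (by rw [sq, mul_nsmul', hp0, nsmul_zero]), add_zsmul, one_zsmul, natCast_zsmul,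
        hp0, add_zero]
    rw [FA.Local.gal_smul_sub (ratCurve W) σ, hX', hσ₂, sub_right_inj, add_eq_left] at hd
    exact hd
  · have hT' : σ • T.1 = T.1 := congrArg Subtype.val hT
    have h0 : p ^ 2 • T.1 = 0 := T.2.trans (map_zero (up W))
    rw [hmul _ h0, add_zsmul, one_zsmul, natCast_zsmul, add_eq_left] at hT'
    exact hT'

/-- Some element of Galois fixes a point of one fibre, none of the other, and no point of order `p²`
of `E[p²]`. -/
theorem exists_fixed_triple (hp2 : p ≠ 2)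
    (hfull : ∀ φ : Submodule.torsionBy ℤ ((ratCurve W).toAffine⁄Qb).Point ((p : ℤ) ^ 1) ≃+
        Submodule.torsionBy ℤ ((ratCurve W).toAffine⁄Qb).Point ((p : ℤ) ^ 1),
      ∃ σ : GQ, ∀ T, Affine.Point.map σ.toAlgHom T.1 = (φ T).1)
    (hfull2 : ∀ φ : Submodule.torsionBy ℤ ((ratCurve W).toAffine⁄Qb).Point ((p : ℤ) ^ 2) ≃+
        Submodule.torsionBy ℤ ((ratCurve W).toAffine⁄Qb).Point ((p : ℤ) ^ 2),
      ∃ σ : GQ, ∀ T, Affine.Point.map σ.toAlgHom T.1 = (φ T).1)
    {P Q : (ratCurve W).toAffine.Point}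
    (hind : ∀ a b : ℤ, ¬ ((p : ℤ) ∣ a ∧ (p : ℤ) ∣ b) → ∀ R, p • R ≠ a • P + b • Q) :
    ∃ σ : GQ, (∃ X, fibHom W p P σ X = X) ∧ (∀ X, fibHom W p Q σ X ≠ X) ∧
      ∀ T, fibHom W (p ^ 2) 0 σ T = T → p • T.1 = 0 := by
  obtain ⟨Q₁, hQ₁⟩ := exists_div W hp.out.ne_zero (up W P)
  obtain ⟨Q₂, hQ₂⟩ := exists_div W hp.out.ne_zero (up W Q)
  obtain ⟨c⟩ := FA.Bashmakov.exists_torsion_coord (ratCurve W) p 1
  have hfix : ∀ (R : (ratCurve W).toAffine.Point) (σ : GQ),
      Affine.Point.map (W' := (ratCurve W).toAffine) σ.toAlgHom (up W R) = up W R := fun R σ => by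
    rw [FA.LinearDependence.up_eq_map]; exact FA.Torsion.map_fixed (ratCurve W) σ R
  obtain ⟨t, ht⟩ : ∃ t : Submodule.torsionBy ℤ ((ratCurve W).toAffine⁄Qb).Point ((p : ℤ) ^ 1),
      t.1 ≠ 0 := ⟨c ![1, 0], fun h => by
    haveI : Fact (1 < p ^ 1) := ⟨by rw [pow_one]; exact hp.out.one_lt⟩
    exact one_ne_zero (congrFun (c.injective ((Subtype.ext h).trans (map_zero c).symm)) 0)⟩
  set T₂ := Submodule.torsionBy ℤ ((ratCurve W).toAffine⁄Qb).Point ((p : ℤ) ^ 2)
  have hT₂ : ∀ z : T₂, ((p : ℤ) ^ 2) • z = 0 := fun z =>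
    Subtype.ext ((Submodule.mem_torsionBy_iff _ _).mp z.2)
  let φ : T₂ ≃+ T₂ :=
    { toFun := fun z => (1 + (p : ℤ)) • z
      invFun := fun z => (1 - (p : ℤ)) • z
      left_inv := fun z => by
        show (1 - (p : ℤ)) • ((1 + (p : ℤ)) • z) = z
        rw [← mul_smul, show (1 - (p : ℤ)) * (1 + p) = 1 - (p : ℤ) ^ 2 by ring, sub_smul, hT₂,
          one_smul, sub_zero]
      right_inv := fun z => by
        show (1 + (p : ℤ)) • ((1 - (p : ℤ)) • z) = z
        rw [← mul_smul, show (1 + (p : ℤ)) * (1 - p) = 1 - (p : ℤ) ^ 2 by ring, sub_smul, hT₂,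
          one_smul, sub_zero]
      map_add' := fun z w => smul_add _ z w }
  obtain ⟨σ, hσ, hσ₁, hσ₂⟩ := exists_act_sq (FA.Bashmakov.pointAct (ratCurve W)) hp2 c hfull hfull2
    (Q₁ := Q₁) (Q₂ := Q₂) (fun σ => by rw [hQ₁]; exact hfix P σ)
    (fun σ => by rw [hQ₂]; exact hfix Q σ)
    (fun a b hab R hR he => by
      obtain ⟨R₀, hR₀⟩ := FA.Thirteen.exists_rat_point (E := ratCurve W) R hR
      refine hind a b hab R₀ (mapHom_injective (algebraMap ℚ Qb) rfl ?_)
      show up W (p • R₀) = up W (a • P + b • Q)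
      refine (map_nsmul (up W) p R₀).trans (Eq.trans ?_ (map_add (up W) _ _).symm)
      have hup : up W R₀ = R := (FA.LinearDependence.up_eq_map R₀).trans hR₀
      refine (congrArg (p • ·) hup).trans (he.trans ?_)
      rw [hQ₁, hQ₂]
      exact (congrArg₂ (· + ·) (map_zsmul (up W) a P) (map_zsmul (up W) b Q)).symm)
    φ 0 t
  rw [ZeroMemClass.coe_zero, add_zero] at hσ₁
  exact fixed_triple_of_act hQ₁ hQ₂ ht hσ₁ hσ₂ fun X hX => hσ ⟨X, by
    rw [Submodule.mem_torsionBy_iff, ← Nat.cast_pow, natCast_zsmul]; exact hX⟩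

/-- **The order of one point does not divide that of the other modulo infinitely many primes**,
given one element of Galois as in `fixed_triple_of_act`. -/
theorem infinite_not_dvd_addOrderOf_of_fixed_triple
    {x y x' y' : ℚ} (h : (ratCurve W).toAffine.Nonsingular x y)
    (h' : (ratCurve W).toAffine.Nonsingular x' y')
    (htriple : ∃ σ : GQ, (∃ X, fibHom W p (.some x y h) σ X = X) ∧
      (∀ X, fibHom W p (.some x' y' h') σ X ≠ X) ∧
      ∀ T, fibHom W (p ^ 2) 0 σ T = T → p • T.1 = 0) :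
    {q : ℕ | q.Prime ∧
      ¬ ∃ _ : Fact q.Prime,
        ∃ k : (W.map (Int.castRingHom (ZMod q))).toAffine.Nonsingular (x : ZMod q) y,
        ∃ k' : (W.map (Int.castRingHom (ZMod q))).toAffine.Nonsingular (x' : ZMod q) y',
        addOrderOf (Affine.Point.some (x' : ZMod q) (y' : ZMod q) k') ∣
          addOrderOf (Affine.Point.some (x : ZMod q) (y : ZMod q) k)}.Infinite := by
  have hpsq : p ^ 2 ≠ 0 := pow_ne_zero _ hp.out.ne_zero
  set f₁ := fibHom W p (.some x y h) with hf₁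
  set f₂ := fibHom W p (.some x' y' h') with hf₂
  set f₀ := fibHom W (p ^ 2) 0 with hf₀
  have := finite_fib W hp.out.ne_zero (.some x y h)
  have := finite_fib W hp.out.ne_zero (.some x' y' h')
  have := finite_fib W hpsq 0
  set f := f₁.prod (f₂.prod f₀) with hf
  let _ : Fintype f.range := Fintype.ofFinite _
  set π := f.rangeRestrict with hπdef
  let X : Set f.range := {g | (∃ Q, g.1.1 Q = Q) ∧ (∀ Q, g.1.2.1 Q ≠ Q) ∧
    ∀ T : Fib W (p ^ 2) 0, g.1.2.2 T = T → p • T.1 = 0}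
  have hX : ∀ g ∈ X, ∀ z, z * g * z⁻¹ ∈ X := by
    rintro g ⟨⟨Q, hQ⟩, hne, htor⟩ ⟨_, τ, rfl⟩
    refine ⟨⟨f₁ τ Q, ?_⟩, fun R e => hne ((f₂ τ).symm R) ((f₂ τ).injective ?_),
      fun T e => ?_⟩
    · show f₁ τ (g.1.1 ((f₁ τ).symm (f₁ τ Q))) = f₁ τ Q
      rw [Equiv.symm_apply_apply, hQ]
    · rw [Equiv.apply_symm_apply]; exact e
    · have h1 : g.1.2.2 ((f₀ τ).symm T) = (f₀ τ).symm T :=
        (f₀ τ).injective (by rw [Equiv.apply_symm_apply]; exact e)
      have h2 : p • (τ⁻¹ • T.1) = 0 := htor _ h1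
      rw [← smul_inv_smul τ T.1, ← smul_nat, h2]
      exact FA.Local.gal_smul_zero (ratCurve W) τ
  have hker : IsOpen (π.ker : Set GQ) := by
    rw [hπdef, MonoidHom.ker_rangeRestrict, hf, MonoidHom.ker_prod, MonoidHom.ker_prod,
      Subgroup.coe_inf, Subgroup.coe_inf]
    exact (isOpen_ker_fibHom W hp.out.ne_zero _).inter
      ((isOpen_ker_fibHom W hp.out.ne_zero _).inter (isOpen_ker_fibHom W hpsq _))
  have hd := FA.Chebotarev.hasDirichletDensity_frobSet π (MonoidHom.rangeRestrict_surjective _)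
    hker hX
  have hpos : (Nat.card X : ℝ) / Fintype.card f.range ≠ 0 := by
    obtain ⟨σ, hσ₁, hσ₂, hσ₀⟩ := htriple
    have : Nonempty X := ⟨⟨π σ, hσ₁, hσ₂, hσ₀⟩⟩
    exact div_ne_zero (Nat.cast_ne_zero.mpr Nat.card_pos.ne')
      (Nat.cast_ne_zero.mpr Fintype.card_ne_zero)
  set N : ℕ := W.Δ.natAbs * p * x.den * y.den * x'.den * y'.den with hN
  have hN0 : N ≠ 0 := by
    have hΔ : W.Δ.natAbs ≠ 0 := fun e => (ratCurve W).isUnit_Δ.ne_zero (by
      simp [ratCurve, Int.natAbs_eq_zero.mp e])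
    simp [hN, hΔ, hp.out.ne_zero]
  have hT : (FA.Chebotarev.frobSet π X \ {v | Ideal.absNorm v.asIdeal ∣ N}).HasDirichletDensity
      ((Nat.card X : ℝ) / Fintype.card f.range) :=
    FA.TraceDist.hasDirichletDensity_congr hd (finite_absNorm_dvd hN0)
      fun v hv => ⟨fun h => ⟨h, hv⟩, fun h => h.1⟩
  have hinf := FA.Chebotarev.infinite_of_hasDirichletDensity hT hpos
  have hIm : ((fun v : HeightOneSpectrum (𝓞 ℚ) => Ideal.absNorm v.asIdeal) ''
      (FA.Chebotarev.frobSet π X \ {v | Ideal.absNorm v.asIdeal ∣ N})).Infinite := fun hfin => by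
    have hI := Set.Finite.biUnion hfin fun q _ => Ideal.finite_setOfPred_absNorm_eq (S := 𝓞 ℚ) q
    exact hinf ((hI.preimage (f := fun v : HeightOneSpectrum (𝓞 ℚ) => v.asIdeal)
      fun a _ b _ e => HeightOneSpectrum.ext e).subset fun v hv =>
        Set.mem_biUnion (Set.mem_image_of_mem _ hv) rfl)
  refine hIm.mono ?_
  rintro _ ⟨v, ⟨hfr, hv⟩, rfl⟩
  have hq := FA.Chebotarev.absNorm_prime v
  haveI := Fact.mk hq
  refine ⟨hq, fun ⟨_, k, k', hdvd⟩ => ?_⟩
  set q := Ideal.absNorm v.asIdeal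
  have hnd : ∀ {m : ℕ}, m ∣ N → ¬ q ∣ m := fun hm e => hv (e.trans hm)
  have hgood : W.IsGoodPrimeFor q := fun e => hnd
    (((((dvd_mul_right _ p).mul_right x.den).mul_right y.den).mul_right x'.den).mul_right y'.den)
    (Int.natCast_dvd.mp e)
  have hqp : q ≠ p := fun e => hnd
    (((((dvd_mul_left p _).mul_right x.den).mul_right y.den).mul_right x'.den).mul_right y'.den)
    (e ▸ dvd_rfl)
  haveI := reductionMod_isElliptic W hgood
  obtain ⟨A, hA⟩ := FA.Deform.exists_liesOverPrime hq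
  obtain ⟨σ, hσ⟩ := FA.Deform.exists_isFrobeniusAt hq hA
  obtain ⟨⟨X₁, hX₁⟩, hX₂, hX₀⟩ := hfr A hA σ hσ
  obtain ⟨_, k₁, R, hR⟩ := FA.BashmakovDensity.locDiv_of_exists_fixed h hgood
    (hnd ((((dvd_mul_left x.den _).mul_right y.den).mul_right x'.den).mul_right y'.den))
    (hnd (((dvd_mul_left y.den _).mul_right x'.den).mul_right y'.den)) hA hσ hX₁
  set Pq := Affine.Point.some (x : ZMod q) (y : ZMod q) k
  set Qq := Affine.Point.some (x' : ZMod q) (y' : ZMod q) k'
  -- `p` does not divide the order of `P` modulo `q`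
  have hPq : ¬ p ∣ addOrderOf Pq := by
    rintro ⟨m, hm⟩
    have h0 : 0 < addOrderOf Pq := (isOfFinAddOrder_of_finite Pq).addOrderOf_pos
    have hm0 : 0 < m := Nat.pos_of_ne_zero fun e => by rw [e, mul_zero] at hm; omega
    obtain ⟨T, hT, hT'⟩ := exists_fixed_torsion_sq hp.out hgood hqp (R := m • R)
      (by rw [← mul_nsmul', sq, mul_assoc, mul_comm p (p * m), mul_nsmul', hR, ← hm]
          exact addOrderOf_nsmul_eq_zero Pq)
      (by
        rw [← mul_nsmul', mul_comm, mul_nsmul', hR]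
        intro e
        have := Nat.le_of_dvd hm0 (addOrderOf_dvd_of_nsmul_eq_zero e)
        nlinarith [hp.out.two_le])
      hA hσ
    exact hT' (hX₀ T hT)
  have hQq : ¬ p ∣ addOrderOf Qq := fun e => hPq (e.trans hdvd)
  -- so `Q` is `p` times a point modulo `q`
  obtain ⟨s, t, hst⟩ := Int.isCoprime_iff_gcd_eq_one.mpr
    (by exact_mod_cast (hp.out.coprime_iff_not_dvd.mpr hQq) :
      Int.gcd (p : ℤ) (addOrderOf Qq : ℤ) = 1)
  have hord : (t * (addOrderOf Qq : ℤ)) • Qq = 0 := by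
    rw [mul_smul, natCast_zsmul, addOrderOf_nsmul_eq_zero, zsmul_zero]
  have hdiv : p • (s • Qq) = Qq :=
    calc p • (s • Qq) = (p : ℤ) • s • Qq := (natCast_zsmul _ _).symm
      _ = (s * p + t * (addOrderOf Qq : ℤ)) • Qq := by
        rw [add_zsmul, hord, add_zero, smul_smul, mul_comm]
      _ = Qq := by rw [hst, one_zsmul]
  obtain ⟨X₂, hfix⟩ := exists_fixed_of_locDiv W hp.out h' hgood hqp
    (hnd ((dvd_mul_left x'.den _).mul_right y'.den)) (hnd (dvd_mul_left y'.den _))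
    ⟨inferInstance, k', s • Qq, hdiv⟩ hA hσ
  exact hX₂ X₂ hfix

/-- **The order of one point does not divide that of the other modulo infinitely many primes.** -/
theorem infinite_not_dvd_addOrderOf (hp2 : p ≠ 2)
    (hfull : ∀ φ : Submodule.torsionBy ℤ ((ratCurve W).toAffine⁄Qb).Point ((p : ℤ) ^ 1) ≃+
        Submodule.torsionBy ℤ ((ratCurve W).toAffine⁄Qb).Point ((p : ℤ) ^ 1),
      ∃ σ : GQ, ∀ T, Affine.Point.map σ.toAlgHom T.1 = (φ T).1)
    (hfull2 : ∀ φ : Submodule.torsionBy ℤ ((ratCurve W).toAffine⁄Qb).Point ((p : ℤ) ^ 2) ≃+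
        Submodule.torsionBy ℤ ((ratCurve W).toAffine⁄Qb).Point ((p : ℤ) ^ 2),
      ∃ σ : GQ, ∀ T, Affine.Point.map σ.toAlgHom T.1 = (φ T).1)
    {x y x' y' : ℚ} (h : (ratCurve W).toAffine.Nonsingular x y)
    (h' : (ratCurve W).toAffine.Nonsingular x' y')
    (hind : ∀ a b : ℤ, ¬ ((p : ℤ) ∣ a ∧ (p : ℤ) ∣ b) → ∀ R,
      p • R ≠ a • Affine.Point.some x y h + b • Affine.Point.some x' y' h') :
    {q : ℕ | q.Prime ∧
      ¬ ∃ _ : Fact q.Prime,
        ∃ k : (W.map (Int.castRingHom (ZMod q))).toAffine.Nonsingular (x : ZMod q) y,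
        ∃ k' : (W.map (Int.castRingHom (ZMod q))).toAffine.Nonsingular (x' : ZMod q) y',
        addOrderOf (Affine.Point.some (x' : ZMod q) (y' : ZMod q) k') ∣
          addOrderOf (Affine.Point.some (x : ZMod q) (y : ZMod q) k)}.Infinite :=
  infinite_not_dvd_addOrderOf_of_fixed_triple h h' (exists_fixed_triple hp2 hfull hfull2 hind)

end FA.SupportProblem

end
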