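import Fermat.Agent.Root.SummaryIndependence
import Fermat.Agent.Root.SummaryBashmakovAll
import Fermat.Agent.SupportProblem.Irreducible
import Fermat.Agent.LinearDependence.Main
import Fermat.Agent.SupportProblem.Frobenius

/-!
# Two curves: point counts prime to `p` where the order of a point is divisible by `p`

With independent `p`-torsion some element of Galois is `-1` on `E[p]`, fixes `E'[p]` and moves
every `p`-th part of a point `Q` of `E'`: the commutator of `(1, -1)` with a translation fixing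
`E'[p]` translates without moving either torsion. At the primes with that Frobenius `p` does not
divide the number of points of `E` and divides the order of `Q`.
-/

set_option autoImplicit false
set_option linter.style.haveILetI false

noncomputable section

open Matrix WeierstrassCurve NumberField IsDedekindDomain FA.Frob FA.RT FA.PointDiv
open scoped WeierstrassCurve.Affine Classical

local notation "Qb" => AlgebraicClosure ℚ
local notation "GQ" => AlgebraicClosure ℚ ≃ₐ[ℚ] AlgebraicClosure ℚ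

namespace FA.SupportProblem

open FA.Bashmakov

variable {W W' : WeierstrassCurve ℤ} [(ratCurve W).IsElliptic] [(ratCurve W').IsElliptic]
  {p : ℕ} [hp : Fact p.Prime]

/-- A matrix `± 1` of the representation gives the action on the torsion. -/
theorem smul_eq_of_curveRep {σ : GQ} :
    (curveRep p W σ = 1 → ∀ y : ((ratCurve W).toAffine⁄Qb).Point, p • y = 0 → σ • y = y) ∧
      (curveRep p W σ = -1 → ∀ y : ((ratCurve W).toAffine⁄Qb).Point, p • y = 0 → σ • y = -y) := by
  obtain ⟨e, he⟩ := FA.Independence.exists_coord (E := ratCurve W)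
    (W := W) ⟨1, one_smul _ _⟩ p
  have hmem : ∀ {y : ((ratCurve W).toAffine⁄Qb).Point}, p • y = 0 →
      y ∈ Submodule.torsionBy ℤ ((ratCurve W).toAffine⁄Qb).Point (p : ℤ) := fun {y} hy => by
    rw [Submodule.mem_torsionBy_iff, natCast_zsmul]; exact hy
  exact ⟨fun h y hy => he σ ⟨y, hmem hy⟩ ⟨y, hmem hy⟩ (by rw [h, one_mulVec]),
    fun h y hy => he σ ⟨y, hmem hy⟩ (-⟨y, hmem hy⟩) (by rw [h, neg_mulVec, one_mulVec, map_neg])⟩

/-- **Some element of Galois is `-1` on `E[p]`, fixes `E'[p]` and moves every `p`-th part of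
`Q`**. -/
theorem exists_act_pair_curves (hp2 : p ≠ 2)
    (hpair : ∀ A B : GL (Fin 2) (ZMod p),
      (A : Matrix (Fin 2) (Fin 2) (ZMod p)).det = (B : Matrix (Fin 2) (Fin 2) (ZMod p)).det →
      ∃ σ : GQ, FA.Independence.pairRep W W' p σ = (A, B))
    (hirr : ∀ S : AddSubgroup ((ratCurve W').toAffine⁄Qb).Point,
      (∀ y ∈ S, y ∈ pTors ((ratCurve W').toAffine⁄Qb).Point p 1) →
      (∀ σ, ∀ y ∈ S, pointAct (ratCurve W') σ y ∈ S) →
      (∀ y ∈ S, y = 0) ∨ ∀ y ∈ pTors ((ratCurve W').toAffine⁄Qb).Point p 1, y ∈ S)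
    (hneg : ∃ τ, ∀ y ∈ pTors ((ratCurve W').toAffine⁄Qb).Point p 1,
      pointAct (ratCurve W') τ y = -y)
    {Q : (ratCurve W').toAffine.Point} (hQ : ∀ R, p • R ≠ Q) :
    ∃ σ : GQ, (∀ T, fibHom W p 0 σ T = T → T.1 = 0) ∧ ∀ X, fibHom W' p Q σ X ≠ X := by
  have hdet : (-1 : Matrix (Fin 2) (Fin 2) (ZMod p)).det =
      (1 : Matrix (Fin 2) (Fin 2) (ZMod p)).det := by simp [Matrix.det_neg]
  obtain ⟨σ₁, hσ₁⟩ := hpair (-1) 1 (by rw [Units.val_neg, Units.val_one]; exact hdet)
  obtain ⟨τ, hτ⟩ := hpair 1 (-1) (by rw [Units.val_neg, Units.val_one]; exact hdet.symm)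
  have e₁ : curveRep p W σ₁ = -1 ∧ curveRep p W' σ₁ = 1 :=
    ⟨(congrArg Units.val (congrArg Prod.fst hσ₁)).trans (by simp),
      (congrArg Units.val (congrArg Prod.snd hσ₁)).trans (by simp)⟩
  have e₂ : curveRep p W τ = 1 ∧ curveRep p W' τ = -1 :=
    ⟨(congrArg Units.val (congrArg Prod.fst hτ)).trans (by simp),
      (congrArg Units.val (congrArg Prod.snd hτ)).trans (by simp)⟩
  set act := pointAct (ratCurve W)
  set act' := pointAct (ratCurve W')
  have hinv : ∀ (σ : GQ) (y : ((ratCurve W).toAffine⁄Qb).Point), act σ (act σ⁻¹ y) = y :=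
    fun σ y => by simpa using act_inv_act act σ⁻¹ y
  obtain ⟨Q', hQ'⟩ := exists_div W' hp.out.ne_zero (up W' Q)
  have hfix : ∀ σ : GQ, act' σ (p • Q') = p • Q' := fun σ => by
    rw [hQ']; exact smul_up W' σ Q
  obtain ⟨c⟩ := FA.Bashmakov.exists_torsion_coord (ratCurve W') p 1
  obtain ⟨s, hs⟩ : ∃ s : pTors ((ratCurve W').toAffine⁄Qb).Point p 1, s.1 ≠ 0 :=
    ⟨c ![1, 0], fun h => by
      haveI : Fact (1 < p ^ 1) := ⟨by rw [pow_one]; exact hp.out.one_lt⟩
      exact one_ne_zero (congrFun (c.injective ((Subtype.ext h).trans (map_zero c).symm)) 0)⟩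
  obtain ⟨h, hh⟩ := hp.out.odd_of_ne_two hp2
  have hd : act' σ₁ Q' - Q' ∈ pTors ((ratCurve W').toAffine⁄Qb).Point p 1 := by
    rw [mem_pTors_iff, pow_one, nsmul_sub, ← map_nsmul, hfix, sub_self]
  set t := s.1 - (act' σ₁ Q' - Q') with ht
  have htm : t ∈ pTors ((ratCurve W').toAffine⁄Qb).Point p 1 := sub_mem s.2 hd
  obtain ⟨g, hg, hgQ⟩ := exists_translation act' ⟨h, hh⟩ 1 hirr hneg
    (fun σ => by rw [pow_one]; exact hfix σ)
    (fun R hR he => by
      obtain ⟨R₀, hR₀⟩ := FA.Thirteen.exists_rat_point (E := ratCurve W') R hR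
      refine hQ R₀ (mapHom_injective (algebraMap ℚ Qb) rfl ?_)
      show up W' (p • R₀) = up W' Q
      have hup : up W' R₀ = R := (FA.LinearDependence.up_eq_map R₀).trans hR₀
      refine (map_nsmul (up W') p R₀).trans ((congrArg (p • ·) hup).trans (he.trans ?_))
      rw [pow_one, hQ'])
    (nsmul_mem htm h)
  obtain ⟨hk, hkQ⟩ := commutator_act act' le_rfl
    (fun y hy => (smul_eq_of_curveRep.2 e₂.2 y (by
      rw [← pow_one p]; exact mem_pTors_iff.mp hy))) hg
  set k := τ * g * τ⁻¹ * g⁻¹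
  have hkW : ∀ y : ((ratCurve W).toAffine⁄Qb).Point, p • y = 0 → act k y = y := fun y hy => by
    have hinv' : ∀ z : ((ratCurve W).toAffine⁄Qb).Point, p • z = 0 → act τ⁻¹ z = z := fun z hz => by
      conv_lhs => rw [← show act τ z = z from smul_eq_of_curveRep.1 e₂.1 z hz]
      rw [act_inv_act]
    rw [act_mul, act_mul, act_mul, hinv' _ (by rw [← map_nsmul, hy, map_zero]), hinv]
    exact smul_eq_of_curveRep.1 e₂.1 y hy
  have hQk : act' k Q' = Q' + t := by
    refine (hkQ hfix hgQ).trans ?_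
    have := mem_pTors_iff.mp htm
    rw [pow_one, hh, succ_nsmul, mul_nsmul'] at this
    rw [sub_eq_iff_eq_add, add_assoc, add_comm t, this, add_zero]
  refine ⟨σ₁ * k, fun T hT => ?_, fun X hX => hs ?_⟩
  · have h0 : p • T.1 = 0 := T.2.trans (map_zero (up W))
    have hT' : act (σ₁ * k) T.1 = T.1 := congrArg Subtype.val hT
    rw [act_mul, hkW _ h0, show act σ₁ T.1 = -T.1 from smul_eq_of_curveRep.2 e₁.1 _ h0] at hT'
    generalize T.1 = z at h0 hT' ⊢
    have hz : z + z = 0 := by nth_rewrite 1 [← hT']; exact neg_add_cancel z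
    rwa [hh, succ_nsmul, mul_comm, mul_nsmul', two_nsmul, hz, nsmul_zero, zero_add] at h0
  · have hX' : act' (σ₁ * k) X.1 = X.1 := congrArg Subtype.val hX
    have hp0 : p • (X.1 - Q') = 0 := by rw [nsmul_sub, X.2, hQ', sub_self]
    have hd0 : act' (σ₁ * k) (X.1 - Q') = X.1 - Q' := by
      rw [act_mul, hk _ (mem_pTors_iff.mpr (by rw [pow_one]; exact hp0))]
      exact smul_eq_of_curveRep.1 e₁.2 _ hp0
    have hσQ : act' (σ₁ * k) Q' = Q' + s.1 := by
      rw [act_mul, hQk, map_add, show act' σ₁ t = t from smul_eq_of_curveRep.1 e₁.2 _ (by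
        rw [← pow_one p]; exact mem_pTors_iff.mp htm), ht]
      abel
    rw [map_sub, hX', hσQ, sub_right_inj, add_eq_left] at hd0
    exact hd0

/-- **Infinitely many primes with point count prime to `p` and order of `Q` divisible by `p`**,
given one element of Galois as in `exists_act_pair_curves`. -/
theorem infinite_not_dvd_card_dvd_addOrderOf {x y : ℚ}
    (h : (ratCurve W').toAffine.Nonsingular x y)
    (hσ : ∃ σ : GQ, (∀ T, fibHom W p 0 σ T = T → T.1 = 0) ∧
      ∀ X, fibHom W' p (.some x y h) σ X ≠ X) :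
    {q : ℕ | q.Prime ∧ ∃ _ : Fact q.Prime,
      ¬ p ∣ Nat.card (W.map (Int.castRingHom (ZMod q))).toAffine.Point ∧
      ∃ k : (W'.map (Int.castRingHom (ZMod q))).toAffine.Nonsingular (x : ZMod q) y,
        p ∣ addOrderOf (Affine.Point.some (x : ZMod q) (y : ZMod q) k)}.Infinite := by
  have := finite_fib W hp.out.ne_zero 0
  have := finite_fib W' hp.out.ne_zero (.some x y h)
  set f := (fibHom W p 0).prod (fibHom W' p (.some x y h)) with hf
  let _ : Fintype f.range := Fintype.ofFinite _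
  set π := f.rangeRestrict with hπdef
  let X : Set f.range := {g | (∀ T, g.1.1 T = T → T.1 = 0) ∧ ∀ Z, g.1.2 Z ≠ Z}
  have hX : ∀ g ∈ X, ∀ z, z * g * z⁻¹ ∈ X := by
    rintro g ⟨hT, hne⟩ ⟨_, τ, rfl⟩
    refine ⟨fun T e => ?_, fun Z e => hne ((fibHom W' p _ τ).symm Z)
      ((fibHom W' p _ τ).injective (by rw [Equiv.apply_symm_apply]; exact e))⟩
    have h1 : τ⁻¹ • T.1 = 0 := hT ((fibHom W p 0 τ).symm T)
      ((fibHom W p 0 τ).injective (by rw [Equiv.apply_symm_apply]; exact e))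
    rw [← smul_inv_smul τ T.1, h1]
    exact FA.Local.gal_smul_zero (ratCurve W) τ
  have hker : IsOpen (π.ker : Set GQ) := by
    rw [hπdef, MonoidHom.ker_rangeRestrict, hf, MonoidHom.ker_prod, Subgroup.coe_inf]
    exact (isOpen_ker_fibHom W hp.out.ne_zero _).inter (isOpen_ker_fibHom W' hp.out.ne_zero _)
  have hd := FA.Chebotarev.hasDirichletDensity_frobSet π (MonoidHom.rangeRestrict_surjective _)
    hker hX
  have hpos : (Nat.card X : ℝ) / Fintype.card f.range ≠ 0 := by
    obtain ⟨σ, hσ₁, hσ₂⟩ := hσ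
    have : Nonempty X := ⟨⟨π σ, hσ₁, hσ₂⟩⟩
    exact div_ne_zero (Nat.cast_ne_zero.mpr Nat.card_pos.ne')
      (Nat.cast_ne_zero.mpr Fintype.card_ne_zero)
  set N : ℕ := W.Δ.natAbs * W'.Δ.natAbs * p * x.den * y.den with hN
  have hN0 : N ≠ 0 := by
    have hΔ : W.Δ.natAbs ≠ 0 := fun e => (ratCurve W).isUnit_Δ.ne_zero (by
      simp [ratCurve, Int.natAbs_eq_zero.mp e])
    have hΔ' : W'.Δ.natAbs ≠ 0 := fun e => (ratCurve W').isUnit_Δ.ne_zero (by
      simp [ratCurve, Int.natAbs_eq_zero.mp e])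
    simp [hN, hΔ, hΔ', hp.out.ne_zero]
  have hT : (FA.Chebotarev.frobSet π X \ {v | Ideal.absNorm v.asIdeal ∣ N}).HasDirichletDensity
      ((Nat.card X : ℝ) / Fintype.card f.range) :=
    FA.TraceDist.hasDirichletDensity_congr hd (finite_absNorm_dvd hN0)
      fun v hv => ⟨fun h => ⟨h, hv⟩, fun h => h.1⟩
  have hinf := FA.Chebotarev.infinite_of_hasDirichletDensity hT hpos
  have hIm : ((fun v : HeightOneSpectrum (𝓞 ℚ) => Ideal.absNorm v.asIdeal) ''
      (FA.Chebotarev.frobSet π X \ {v | Ideal.absNorm v.asIdeal ∣ N})).Infinite := fun hfin => by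
    have hI := Set.Finite.biUnion hfin fun q _ => Ideal.finite_setOfPred_absNorm_eq (S := 𝓞 ℚ) q
    exact hinf ((hI.preimage (f := fun v : HeightOneSpectrum (𝓞 ℚ) => v.asIdeal)
      fun a _ b _ e => HeightOneSpectrum.ext e).subset fun v hv =>
        Set.mem_biUnion (Set.mem_image_of_mem _ hv) rfl)
  refine hIm.mono ?_
  rintro _ ⟨v, ⟨hfr, hv⟩, rfl⟩
  have hq := FA.Chebotarev.absNorm_prime v
  haveI := Fact.mk hq
  set q := Ideal.absNorm v.asIdeal
  have hnd : ∀ {m : ℕ}, m ∣ N → ¬ q ∣ m := fun hm e => hv (e.trans hm)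
  have hgood : W.IsGoodPrimeFor q := fun e => hnd
    ((((dvd_mul_right _ W'.Δ.natAbs).mul_right p).mul_right x.den).mul_right y.den)
    (Int.natCast_dvd.mp e)
  have hgood' : W'.IsGoodPrimeFor q := fun e => hnd
    ((((dvd_mul_left _ W.Δ.natAbs).mul_right p).mul_right x.den).mul_right y.den)
    (Int.natCast_dvd.mp e)
  have hqp : q ≠ p := fun e => hnd
    (((dvd_mul_left p _).mul_right x.den).mul_right y.den) (e ▸ dvd_rfl)
  haveI := reductionMod_isElliptic W hgood
  haveI := reductionMod_isElliptic W' hgood'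
  obtain ⟨A, hA⟩ := FA.Deform.exists_liesOverPrime hq
  obtain ⟨σ, hσ'⟩ := FA.Deform.exists_isFrobeniusAt hq hA
  haveI : CharP (FA.Frob.Res A) q := residueField_charP A hq hA
  haveI := redCurve_isElliptic (intCoeff_ratCurve W' A) (valuation_Δ_ratCurve W' hq hA hgood')
  obtain ⟨htor, hne⟩ := hfr A hA σ hσ'
  refine ⟨hq, inferInstance, fun hdvd => ?_, ?_⟩
  · obtain ⟨R, hR⟩ := exists_prime_addOrderOf_dvd_card' p hdvd
    have hR0 : p ^ (0 + 1) • R = 0 := by rw [zero_add, pow_one, ← hR, addOrderOf_nsmul_eq_zero]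
    have hR1 : p ^ 0 • R ≠ 0 := fun e => by
      rw [pow_zero, one_nsmul] at e
      rw [e, addOrderOf_zero] at hR
      exact hp.out.one_lt.ne hR
    obtain ⟨T, hT0, hσT, hT'⟩ :=
      FA.OrderDensity.exists_fixed_torsion hp.out hgood hqp hR0 hR1 hA hσ'
    refine hT' ?_
    rw [pow_zero, one_nsmul]
    rw [zero_add, pow_one] at hT0
    exact htor ⟨T, hT0.trans (map_zero (up W)).symm⟩ (Subtype.ext hσT)
  obtain ⟨k, -⟩ := redHom_up W' hA hgood' h
    (hnd ((dvd_mul_left x.den _).mul_right y.den)) (hnd (dvd_mul_left y.den _))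
  refine ⟨k, by_contra fun hQq => ?_⟩
  obtain ⟨s, t, hst⟩ := Int.isCoprime_iff_gcd_eq_one.mpr
    (by exact_mod_cast (hp.out.coprime_iff_not_dvd.mpr hQq) :
      Int.gcd (p : ℤ) (addOrderOf (Affine.Point.some (x : ZMod q) (y : ZMod q) k) : ℤ) = 1)
  set Qq := Affine.Point.some (x : ZMod q) (y : ZMod q) k
  have hord : (t * (addOrderOf Qq : ℤ)) • Qq = 0 := by
    rw [mul_smul, natCast_zsmul, addOrderOf_nsmul_eq_zero, zsmul_zero]
  have hdiv : p • (s • Qq) = Qq :=
    calc p • (s • Qq) = (p : ℤ) • s • Qq := (natCast_zsmul _ _).symm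
      _ = (s * p + t * (addOrderOf Qq : ℤ)) • Qq := by
        rw [add_zsmul, hord, add_zero, smul_smul, mul_comm]
      _ = Qq := by rw [hst, one_zsmul]
  obtain ⟨Z, hZ⟩ := exists_fixed_of_locDiv W' hp.out h hgood' hqp
    (hnd ((dvd_mul_left x.den _).mul_right y.den)) (hnd (dvd_mul_left y.den _))
    ⟨inferInstance, k, s • Qq, hdiv⟩ hA hσ'
  exact hne Z hZ

end FA.SupportProblem

end
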